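import Fermat.Agent.ModularityLifting.PointsDatum.Hecke
import Fermat.Agent.ModularityLifting.Degeneracy.TWOld
import Fermat.Agent.ModularityLifting.Start.Transfer

/-!
# Sets of Taylor–Wiles primes with the same ranks at every level

The rank of an eigenpart only depends on the primes, and is bounded independently of them; so the
primes may be chosen with one system of ranks for all levels `n`.
-/

set_option autoImplicit false

noncomputable section

open IsLocalRing

namespace FLTAgent.PointsDatum

open FLTAgent.LevelRaising FLTAgent.ModularityLifting FLTAgent.DefRing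

variable {O : Type} [CommRing O] [IsDomain O] [IsDiscreteValuationRing O] {P : LiftProblem O}

namespace TWSet

/-- The same primes at a lower level. -/
def lower {n m : ℕ} (Q : TWSet P m) (h : n ≤ m) : TWSet P n where
  q := Q.q
  q_prime := Q.q_prime
  q_inj := Q.q_inj
  q_cong i := by
    have h1 := Q.q_cong i
    rw [← Nat.mod_mod_of_dvd (Q.q i) (pow_dvd_pow P.p (Nat.succ_le_succ h)), h1]
    exact Nat.mod_eq_of_lt (Nat.one_lt_pow (Nat.succ_ne_zero n) P.hp.one_lt)
  dist := Q.dist

variable [Fact P.p.Prime] [IsAdicComplete (maximalIdeal O) O] [Finite (ResidueField O)]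
variable {n : ℕ} (Q : TWSet P n)

/-- The residual traces. -/
def residualTrace (P : LiftProblem O) : ℕ → ResidueField O :=
  fun l => residue O (P.ρ (P.frob l)).trace

/-- The residual rank at a level, with the primes of a given set left free. -/
def residualRank (P : LiftProblem O) (S : Finset ℕ) (L : ℕ) : ℕ :=
  Module.finrank (ResidueField O)
    (eigenPart (ResidueField O) (1 : DirichletCharacter (ResidueField O) L) S (residualTrace P))

theorem residue_map_bijective : Function.Bijective (ResidueField.map (algebraMap O (TW P n))) := by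
  refine ⟨(ResidueField.map (algebraMap O (TW P n))).injective, fun z => ?_⟩
  obtain ⟨a, rfl⟩ := residue_surjective z
  refine ⟨residue O (twAug O P.p P.r n a), ?_⟩
  rw [ResidueField.map_residue, ← sub_eq_zero, ← map_sub, residue_eq_zero_iff]
  have hmem : algebraMap O (TW P n) (twAug O P.p P.r n a) - a ∈
      RingHom.ker (twAug O P.p P.r n) := by
    rw [RingHom.mem_ker, map_sub, AlgHom.commutes, Algebra.algebraMap_self, RingHom.id_apply,
      sub_self]
  rw [ker_twAug O P.p P.r n P.p_mem] at hmem
  refine (Ideal.span_le.mpr ?_) hmem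
  rintro _ ⟨i, rfl⟩
  have := twU_sub_one_mem O P.p P.r n P.p_mem i
  rwa [twU, add_sub_cancel_left] at this

theorem residue_delta_eq_one {J : Finset ℕ} :
    (Q.delta J).ringHomComp (residue (TW P n)) = 1 := by
  refine MulChar.ext fun u => ?_
  obtain ⟨d, hd⟩ := ZMod.intCast_surjective (u : ZMod (Q.level J))
  have hu : IsUnit (d : ZMod (Q.level J)) := hd.symm ▸ u.isUnit
  rw [MulChar.one_apply_coe, MulChar.ringHomComp_apply, ← hd, Q.delta_apply J hu, map_prod]
  refine Finset.prod_eq_one fun i _ => ?_
  have hi : IsUnit (d : ZMod (Q.q i)) := by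
    have := hu.map (ZMod.castHom (Q.q_dvd_level i J) (ZMod (Q.q i)))
    rwa [map_intCast] at this
  obtain ⟨k, hk⟩ := Q.twChar_apply_zpow i hi.unit
  rw [hi.unit_spec] at hk
  rw [hk, map_pow, map_pow, Q.residue_twU, one_pow, one_pow]

/-- The rank is the residual rank over the residue field of the coefficients. -/
theorem rank_eq_residualRank {J : Finset ℕ} (hJ : J ⊆ P.raise) :
    Q.rank J = residualRank P Q.badSet (Q.level J) := by
  rw [Q.rank_eq hJ]
  set e := RingEquiv.ofBijective _ (residue_map_bijective (P := P) (n := n))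
  have hSL : ∀ l, l.Prime → l ∣ Q.level J → l ∈ Q.badSet := fun l hl h =>
    Q.mem_badSet_of_dvd hJ hl (h.mul_right _)
  have ha : (e : ResidueField O →+* ResidueField (TW P n)) ∘ residualTrace P =
      residue (TW P n) ∘ Q.aTW := funext fun l => ResidueField.map_residue _ _
  have ha' : (e.symm : ResidueField (TW P n) →+* ResidueField O) ∘ (residue (TW P n) ∘ Q.aTW) =
      residualTrace P := by
    rw [← ha]; funext l; simp
  have h1 : ∀ v ∈ eigenPart (ResidueField O) (1 : DirichletCharacter (ResidueField O) (Q.level J))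
      Q.badSet (residualTrace P), mapVal (e : ResidueField O →+* ResidueField (TW P n)) v ∈
        Q.resPart J := by
    intro v hv
    have h := mapVal_mem_eigenPart
      (e : ResidueField O →+* ResidueField (TW P n)) e.surjective hSL hv
    rw [MulChar.ringHomComp_one, ha] at h
    show _ ∈ eigenPart _ _ _ _
    rwa [residue_delta_eq_one]
  have h2 : ∀ v ∈ Q.resPart J, mapVal (e.symm : ResidueField (TW P n) →+* ResidueField O) v ∈
      eigenPart (ResidueField O) (1 : DirichletCharacter (ResidueField O) (Q.level J))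
        Q.badSet (residualTrace P) := by
    intro v hv
    change v ∈ eigenPart _ _ _ _ at hv
    rw [residue_delta_eq_one] at hv
    have h := mapVal_mem_eigenPart (e.symm : ResidueField (TW P n) →+* ResidueField O)
      e.symm.surjective hSL hv
    rwa [MulChar.ringHomComp_one, ha'] at h
  let j : eigenPart (ResidueField O) (1 : DirichletCharacter (ResidueField O) (Q.level J))
      Q.badSet (residualTrace P) ≃+ Q.resPart J :=
    { toFun := fun v => ⟨_, h1 v v.2⟩
      invFun := fun v => ⟨_, h2 v v.2⟩
      left_inv := fun v => Subtype.ext (by funext x y; simp [mapVal])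
      right_inv := fun v => Subtype.ext (by funext x y; simp [mapVal])
      map_add' := fun v w => Subtype.ext (by funext x y; simp [mapVal]) }
  exact (congrArg Cardinal.toNat (rank_eq_of_equiv_equiv e j e.bijective fun r m =>
    Subtype.ext (by funext x y; simp [j, mapVal]))).symm

theorem rank_lower {m : ℕ} (Q' : TWSet P m) (h : n ≤ m) (J : Finset ℕ) :
    (Q'.lower h).rank J = Q'.rank J := by
  by_cases hJ : J ⊆ P.raise
  · rw [(Q'.lower h).rank_eq_residualRank hJ, Q'.rank_eq_residualRank hJ]
    rfl
  · rw [rank, if_neg hJ, rank, if_neg hJ]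

variable [ExtraThree P] [CharZero O]

/-- The rank at most doubles with each Taylor–Wiles prime. -/
theorem residualRank_le_two_pow {J : Finset ℕ} (hJ : J ⊆ P.raise) (s : Finset (Fin P.r)) :
    residualRank P Q.badSet (baseLevel P J * ∏ i ∈ s, Q.q i) ≤
      2 ^ s.card * residualRank P Q.badSet (baseLevel P J) := by
  classical
  induction s using Finset.induction_on with
  | empty => simp
  | insert i s hi ih =>
    have hprime := Q.q_prime i
    rw [Finset.prod_insert hi, mul_comm (Q.q i), ← mul_assoc]
    set N := baseLevel P J * ∏ i ∈ s, Q.q i with hN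
    have hbase : ∀ v ∈ P.minimal ∪ P.extra ∪ J, v.Prime := fun v hv => (mem_primes hJ hv).1
    have : NeZero N := ⟨mul_ne_zero (Finset.prod_ne_zero_iff.mpr fun v hv => (hbase v hv).ne_zero)
      (Finset.prod_ne_zero_iff.mpr fun k _ => (Q.q_prime k).1.ne_zero)⟩
    have hdvd : N * Q.q i ∣ Q.level J := by
      rw [hN, mul_assoc, mul_comm _ (Q.q i), ← Finset.prod_insert hi]
      exact mul_dvd_mul_left _ (Finset.prod_dvd_prod_of_subset _ _ _ (Finset.subset_univ _))
    have hqN : ¬ Q.q i ∣ N := by
      intro hd
      rcases hprime.1.dvd_mul.mp hd with h | h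
      · obtain ⟨v, hv, hqv⟩ := hprime.1.prime.exists_mem_finset_dvd h
        exact hprime.2.1 ((Nat.prime_dvd_prime_iff_eq hprime.1 (hbase v hv)).mp hqv ▸
          (mem_primes hJ hv).2)
      · obtain ⟨k, hk, hqk⟩ := hprime.1.prime.exists_mem_finset_dvd h
        exact hi (Q.q_inj ((Nat.prime_dvd_prime_iff_eq hprime.1 (Q.q_prime k).1).mp hqk) ▸ hk)
    have hell : P.p = 3 → ∃ t, t.Prime ∧ t ∣ N ∧ t % 3 = 2 := fun h3 => by
      obtain ⟨t, ht, ht3⟩ := ExtraThree.out (P := P) h3
      exact ⟨t, P.prime t (by simp [ht]),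
        (Finset.dvd_prod_of_mem _ (by simp [ht])).mul_right _, ht3⟩
    have hS : ∀ l, l.Prime → l ∣ N * Q.q i * P.p → l ∈ Q.badSet := fun l hl h =>
      Q.mem_badSet_of_dvd hJ hl (h.trans (mul_dvd_mul_right hdvd _))
    have := charP_residueField P
    have hne := exists_non_eisenstein P Q.badSet (mul_ne_zero (NeZero.ne N) hprime.1.ne_zero)
    have hunr : ∀ l, l.Prime → l ∉ Q.badSet → UnramifiedAt P.ρbar l := fun l hl hlS => by
      simp only [badSet, Finset.mem_union, Finset.mem_singleton, not_or] at hlS
      exact Start.unramifiedAt_map _ (P.unram l hl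
        (fun h => hlS.1.1 (Finset.mem_union_left _ h)) hlS.1.2)
    have h := (twPrime_old P.p P.hp2 hprime.1 hprime.2.2 hqN
      (by rw [← Nat.mod_mod_of_dvd (Q.q i) (dvd_pow_self P.p (Nat.succ_ne_zero n)), Q.q_cong i]
          exact Nat.mod_eq_of_lt P.hp.one_lt)
      Q.badSet hS hell P.ρbar (P.cont.map _ inferInstance) (rhobar_det P) P.irr
      (Start.unramifiedAt_map _ (P.unram _ hprime.1
        (fun h => hprime.2.1 (Finset.mem_union_left _ h)) hprime.2.2))
      (Q.dist i) (fun l => (P.ρ (P.frob l)).trace) (fun l hl hlS A hA φ hφ => ?_) hne).1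
    · have hone : ∀ L, (1 : DirichletCharacter O L).ringHomComp (residue O) = 1 := fun L =>
        MulChar.ringHomComp_one _
      have h1 : residualRank P Q.badSet (N * Q.q i) ≤ 2 * residualRank P Q.badSet N := by
        have : NeZero (N * Q.q i) := ⟨mul_ne_zero (NeZero.ne N) hprime.1.ne_zero⟩
        rw [finrank_eigenPart P.hp2 (fun h => (hell h).imp fun t ht =>
            ⟨ht.1, ht.2.1.mul_right _, ht.2.2⟩) Q.badSet hS _ hne,
          finrank_eigenPart P.hp2 hell Q.badSet (fun l hl h => hS l hl (h.trans
            (mul_dvd_mul_right (dvd_mul_right N _) _))) _ (by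
              obtain ⟨ℓ, g1, g2, g3, g4⟩ := hne
              exact ⟨ℓ, g1, g2, Nat.ModEq.of_dvd (dvd_mul_right N _) g3, g4⟩)] at h
        exact h
      refine (le_of_eq ?_).trans (h1.trans ((Nat.mul_le_mul_left 2 ih).trans (le_of_eq ?_)))
      · rw [hN, mul_assoc]
      · rw [Finset.card_insert_of_notMem hi, pow_succ', mul_assoc]
    · have hu := hunr l hl hlS
      rw [(trace_frobenius_eq hl hu hA (P.place_spec l hl) hφ (P.frob_spec l hl)).1,
        LiftProblem.ρbar, Start.mapRep_trace]

/-- A bound for the ranks, independent of the primes. -/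
theorem rank_le (J : Finset ℕ) :
    Q.rank J ≤ 2 ^ P.r *
      Module.finrank (ResidueField O) (Lev (ResidueField O) (baseLevel P J)) := by
  by_cases hJ : J ⊆ P.raise
  swap
  · rw [rank, if_neg hJ]; exact Nat.zero_le _
  rw [Q.rank_eq_residualRank hJ]
  refine (Q.residualRank_le_two_pow hJ Finset.univ).trans ?_
  rw [Finset.card_univ, Fintype.card_fin]
  have : NeZero (baseLevel P J) :=
    ⟨Finset.prod_ne_zero_iff.mpr fun v hv => (mem_primes hJ hv).1.ne_zero⟩
  refine Nat.mul_le_mul_left _ (Submodule.finrank_mono ?_)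
  intro v hv
  have hSL : ∀ l, l.Prime → l ∣ baseLevel P J → l ∈ Q.badSet := fun l hl h =>
    Q.mem_badSet_of_dvd hJ hl ((h.mul_right _).mul_right _)
  exact ((mem_eigenPart_one_iff hSL).mp hv).1

end TWSet

/-- From primes at every level, primes with one system of ranks. -/
theorem exists_rank_const [Fact P.p.Prime] [IsAdicComplete (maximalIdeal O) O]
    [Finite (ResidueField O)] [ExtraThree P] [CharZero O] (Q : ∀ n, TWSet P n) :
    ∃ (d : Finset ℕ → ℕ) (m : ℕ → ℕ) (h : ∀ n, n ≤ m n),
      ∀ n, ((Q (m n)).lower (h n)).rank = d := by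
  classical
  let bound : Finset ℕ → ℕ := fun J => 2 ^ P.r *
    Module.finrank (ResidueField O) (Lev (ResidueField O) (baseLevel P J))
  let f : ℕ → ∀ J : P.raise.powerset, Fin (bound J + 1) := fun n J =>
    ⟨(Q n).rank J, Nat.lt_succ_of_le ((Q n).rank_le J)⟩
  obtain ⟨y, hy⟩ := Finite.exists_infinite_fiber f
  have hinf : (f ⁻¹' {y}).Infinite := Set.infinite_coe_iff.mp hy
  choose m hm hnm using fun n => hinf.exists_gt n
  refine ⟨(Q (m 0)).rank, m, fun n => (hnm n).le, fun n => funext fun J => ?_⟩
  rw [TWSet.rank_lower]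
  by_cases hJ : J ⊆ P.raise
  · exact congrArg Fin.val ((congrFun (hm n) ⟨J, Finset.mem_powerset.mpr hJ⟩).trans
      (congrFun (hm 0) ⟨J, Finset.mem_powerset.mpr hJ⟩).symm)
  · rw [TWSet.rank, if_neg hJ, TWSet.rank, if_neg hJ]

end FLTAgent.PointsDatum
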