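import Fermat.Agent.ModularityLifting.PointsDatum.Fields
import Fermat.Agent.ModularityLifting.Final.Ranks
import Fermat.Agent.Eigenforms.Oldforms

/-!
# The top points lie on eigenforms of the level without Taylor–Wiles primes

A point with trivial diamond values is neither Steinberg nor ramified at the Taylor–Wiles primes, so
its newform has level dividing the base level, and the coefficients of the newform at those primes
are the traces of the point.
-/

set_option autoImplicit false
set_option linter.unusedSectionVars false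

noncomputable section

open IsLocalRing Matrix

namespace FLTAgent.PointsDatum

open FLTAgent.LevelRaising FLTAgent.ModularityLifting FLTAgent.DefRing FLTAgent.HeckePoints
  FLTAgent.GaloisAttach CongruenceSubgroup
open FLTAgent.Density (GalQ Qbar)

variable {O : Type} [CommRing O] [IsDomain O] [IsDiscreteValuationRing O] {P : LiftProblem O}
  {n : ℕ} {Q : TWSet P n} [Fact P.p.Prime] [IsAdicComplete (maximalIdeal O) O]
  [Finite (ResidueField O)] [CharZero O] [ExtraThree P]
  {C : Type} [CommRing C] [IsDomain C] [IsDiscreteValuationRing C] [Algebra O C]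
  [IsLocalHom (algebraMap O C)] [IsAdicComplete (maximalIdeal C) C] [Module.Finite O C] [CharZero C]
  [Finite (ResidueField C)]
  {j : C →ₐ[O] Kbar O} (hj : Function.Injective j)
  {J : Finset ℕ} (hJ : J ⊆ P.raise) (x : Q.heckeAlg J →ₐ[O] C)

namespace TWSet

include hj in
/-- A point with trivial diamond values has no twist. -/
theorem twLevel_eq_level (hu : ∀ i, Q.pointHom x (twU O P.p P.r n i) = 1) :
    Q.twLevel (Q.geomHom j x) J = Q.level J := by
  classical
  have hall : ∀ t ∈ Finset.univ.image Q.q, Q.chiFam (Q.geomHom j x) t = 1 := by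
    intro t ht
    obtain ⟨i, -, rfl⟩ := Finset.mem_image.mp ht
    refine MulChar.ext fun v => ?_
    obtain ⟨d, hd⟩ := ZMod.intCast_surjective (v : ZMod (Q.q i))
    have hdu : IsUnit (d : ZMod (Q.q i)) := hd.symm ▸ v.isUnit
    rw [MulChar.one_apply_coe, ← hd, Q.chiFam_intCast _ i hdu, Q.geomHom_apply]
    obtain ⟨k, hk⟩ := Q.twChar_apply_zpow i hdu.unit
    rw [hdu.unit_spec] at hk
    rw [hk, map_pow, hu, one_pow, map_one]
  rw [twLevel, twM, twT, Finset.filter_true_of_mem hall]
  rw [Finset.filter_false_of_mem (p := fun t => Q.chiFam (Q.geomHom j x) t ≠ 1)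
      (fun t ht h => h (hall t ht)), Finset.prod_empty, mul_one,
    Finset.prod_image fun i _ k _ h => Q.q_inj h]
  rfl

include hj hJ in
/-- A point is not Steinberg at a Taylor–Wiles prime. -/
theorem not_steinberg_q (i : Fin P.r) {e : C} (he : e = 1 ∨ e = -1) :
    ¬ SteinbergAt (pointRep hj hJ x) (Q.q i) e := by
  intro h
  have := charP_residueField P
  obtain ⟨hq, hloc, hqp⟩ := Q.q_prime i
  have hsq := residue_sq_of_steinberg hj hJ x hq he h
  obtain ⟨α, β, hαβ, hs, hm⟩ := Q.dist i _ (P.place_spec _ hq) _ (P.frob_spec _ hq)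
  have hq1 : ((Q.q i : ℕ) : ResidueField O) = 1 := by
    rw [← Nat.cast_one, CharP.natCast_eq_natCast (ResidueField O) P.p]
    show Q.q i % P.p = 1 % P.p
    rw [← Nat.mod_mod_of_dvd (Q.q i) (dvd_pow_self P.p (Nat.succ_ne_zero n)), Q.q_cong i]
  rw [det_frobenius_residual P.hp (rhobar_det P) hq hqp (P.place_spec _ hq) (P.frob_spec _ hq),
    hq1] at hm
  have ht : (P.ρbar (P.frob (Q.q i))).trace = residue O (P.ρ (P.frob (Q.q i))).trace :=
    Start.mapRep_trace ..
  rw [hq1, ← ht, ← hs] at hsq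
  exact hαβ (sub_eq_zero.mp (eq_zero_of_pow_eq_zero (n := 2) (by linear_combination hsq - 4 * hm)))

include hj hJ in
/-- The newform of a point with trivial diamond values has level dividing the base level. -/
theorem exists_newform_base
    (hu : ∀ i, Q.pointHom x (twU O P.p P.r n i) = 1) :
    ∃ (M : ℕ) (_ : NeZero M) (g : CuspForm (Gamma0 M) 2), M ∣ baseLevel P J ∧
      LevelLowering.OnNewform (p_mem_of_isLocalHom P (C := C)) (Q.levelPrimes J)
        (pointRep hj hJ x) g := by
  classical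
  obtain ⟨M, hM0, g, hML, H⟩ := exists_onNewform hj hJ x
  rw [twLevel_eq_level hj x hu] at hML
  refine ⟨M, hM0, g, (Nat.Coprime.prod_right fun i _ => ?_).dvd_of_dvd_mul_right hML, H⟩
  obtain ⟨hq, hloc, hqp⟩ := Q.q_prime i
  refine (hq.coprime_iff_not_dvd.mpr fun hd => ?_).symm
  have h2 : ¬ Q.q i ^ 2 ∣ M := fun h => by
    have h1 := h.trans hML
    rw [level, ← Finset.mul_prod_erase _ _ (Finset.mem_univ i), pow_two, mul_left_comm,
      Nat.mul_dvd_mul_iff_left hq.pos] at h1
    rcases hq.dvd_mul.mp h1 with h1 | h1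
    · obtain ⟨v, hv, hqv⟩ := hq.prime.exists_mem_finset_dvd h1
      exact hloc ((Nat.prime_dvd_prime_iff_eq hq (mem_primes hJ hv).1).mp hqv ▸
        (mem_primes hJ hv).2)
    · obtain ⟨k, hk, hqk⟩ := hq.prime.exists_mem_finset_dvd h1
      exact (Finset.mem_erase.mp hk).1
        (Q.q_inj ((Nat.prime_dvd_prime_iff_eq hq (Q.q_prime k).1).mp hqk)).symm
  obtain ⟨ε, hε, hst⟩ := H.steinbergAt P.hp2 (absIrreducible_pointRep hj hJ x) hq hqp hd h2
  exact not_steinberg_q hj hJ x i (by rcases hε with rfl | rfl <;> simp) hst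

include hj hJ in
/-- The form of the base level at a point with trivial diamond values, with all its coefficients. -/
theorem exists_eigenform_base
    (hu : ∀ i, Q.pointHom x (twU O P.p P.r n i) = 1) :
    ∃ f : CuspForm (Gamma0 (baseLevel P J)) 2, f.IsNormalizedEigenform ∧
      ∃ φ : integralClosure ℤ ℂ →+* Kbar O,
        ∀ l : ℕ, l.Prime → ¬ l ∣ baseLevel P J → l ≠ P.p → ∀ a : integralClosure ℤ ℂ,
          (a : ℂ) = ModularFormClass.qCoeff f l →
            φ a = j (pointRep hj hJ x (P.frob l)).trace := by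
  classical
  have : NeZero (baseLevel P J) :=
    ⟨Finset.prod_ne_zero_iff.mpr fun v hv => (mem_primes hJ hv).1.ne_zero⟩
  obtain ⟨M, hM0, g, hMN, H⟩ := exists_newform_base hj hJ x hu
  have hg := H.isNewform.isNormalizedEigenform
  obtain ⟨f, hf, hfg⟩ :=
    Eigenforms.exists_eigenform_level_mul (MFIntegral.hasIntegralStructure _ 2) hMN hg
  -- extend the character to all algebraic numbers
  set S := Q.levelPrimes J
  obtain ⟨θ, hker, hθ, -⟩ := H.exists_attached
  set χ := Eigenforms.eigenChar (S := (S : Set ℕ)) hg with hχ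
  let ι : χ.range →+* C := RingHom.liftOfSurjective χ.rangeRestrict χ.rangeRestrict_surjective
    ⟨θ, by rw [RingHom.ker_rangeRestrict, hker]⟩
  have hι : ∀ t, ι (χ.rangeRestrict t) = θ t := fun t =>
    RingHom.liftOfRightInverse_comp_apply _ _ _ _ t
  have hιinj : Function.Injective ι := by
    refine (injective_iff_map_eq_zero ι).mpr fun r hr => ?_
    obtain ⟨t, rfl⟩ := χ.rangeRestrict_surjective r
    rw [hι, ← RingHom.mem_ker, hker, RingHom.mem_ker] at hr
    exact Subtype.ext hr
  let AC : IntermediateField ℚ ℂ := algebraicClosure ℚ ℂ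
  have hmemAC : ∀ z : ℂ, IsIntegral ℤ z → z ∈ AC := fun z hz =>
    mem_algebraicClosure_iff'.mpr (hz.tower_top (A := ℚ))
  have hRmem : ∀ r : χ.range, (r : ℂ) ∈ AC := by
    rintro ⟨-, t, rfl⟩
    exact hmemAC _ (Eigenforms.isIntegral_eigenChar (MFIntegral.hasIntegralStructure _ 2) hg t)
  let : Algebra χ.range AC := (χ.range.subtype.codRestrict AC.toSubfield hRmem).toAlgebra
  let : Algebra χ.range (Kbar O) := ((j : C →+* Kbar O).comp ι).toAlgebra
  have : Module.IsTorsionFree χ.range AC := Module.isTorsionFree_iff_algebraMap_injective.mpr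
    fun a b h => Subtype.ext (congrArg (Subtype.val : AC → ℂ) h)
  have : Module.IsTorsionFree χ.range (Kbar O) := Module.isTorsionFree_iff_algebraMap_injective.mpr
    (hj.comp hιinj)
  have : Algebra.IsAlgebraic ℚ AC := algebraicClosure.isAlgebraic ℚ ℂ
  have : Algebra.IsAlgebraic ℤ AC :=
    (IsFractionRing.comap_isAlgebraic_iff (A := ℤ) (K := ℚ)).mpr inferInstance
  have : IsScalarTower ℤ χ.range AC := IsScalarTower.of_algebraMap_eq' (RingHom.ext_int _ _)
  have : Algebra.IsAlgebraic χ.range AC :=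
    Algebra.IsAlgebraic.extendScalars (R := ℤ) fun a b h => by
      simpa using congrArg (Subtype.val : χ.range → ℂ) h
  let ψ : AC →ₐ[χ.range] Kbar O := IsAlgClosed.lift
  have hψ : ∀ (t : _) (h : χ t ∈ AC), ψ ⟨χ t, h⟩ = j (θ t) := fun t h => by
    rw [show (⟨χ t, h⟩ : AC) = algebraMap χ.range AC (χ.rangeRestrict t) from rfl, ψ.commutes]
    show j (ι (χ.rangeRestrict t)) = _
    rw [hι]
  refine ⟨f, hf, (ψ : AC →+* Kbar O).comp ((integralClosure ℤ ℂ).toSubring.subtype.codRestrict
    AC.toSubfield fun a => hmemAC _ a.2), fun l hl hlN hlp a ha => ?_⟩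
  rw [hfg l hl hlN] at ha
  have hlM : ¬ l ∣ M := fun h => hlN (h.trans hMN)
  show ψ ⟨(a : ℂ), hmemAC _ a.2⟩ = _
  by_cases hlS : l ∈ S
  swap
  · have hlS' : l ∉ (S : Set ℕ) := fun h => hlS (Finset.mem_coe.mp h)
    rw [hθ l hl hlM hlS' _ (P.place_spec l hl) _ (P.frob_spec l hl), ← hψ _ (hRmem ⟨_, _, rfl⟩)]
    exact congrArg ψ (Subtype.ext (ha.trans (Eigenforms.eigenChar_T hg hl hlM hlS').symm))
  -- at a Taylor–Wiles prime: a character with one prime less, over a larger ring
  set z := ψ ⟨(a : ℂ), hmemAC _ a.2⟩ with hz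
  obtain ⟨s, hs⟩ := Module.Finite.fg_top (R := O) (M := C)
  have hzint : IsIntegral O z := by
    have h1 : IsIntegral ℤ z := by
      have h2 : IsIntegral ℤ (⟨(a : ℂ), hmemAC _ a.2⟩ : AC) :=
        (isIntegral_algHom_iff ((AC.val).restrictScalars ℤ) Subtype.val_injective).mp a.2
      convert map_isIntegral_int ψ h2 using 1
      exact Subsingleton.elim _ _
    exact h1.tower_top
  obtain ⟨C', iC, iD, iV, iA, iF, iZ, iAlg, iFin, -, iL, j', hj', -, hsub⟩ :=
    exists_coeff O (insert z (j '' (s : Set C))) ((s.finite_toSet.image j).insert z) (by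
      rintro w (rfl | ⟨y, -, rfl⟩)
      · exact hzint
      · exact (Algebra.IsIntegral.isIntegral (R := O) y).map j)
  have hrange : ∀ y, j y ∈ j'.range := fun y => by
    have hy : y ∈ Submodule.span O (s : Set C) := hs ▸ Submodule.mem_top
    induction hy using Submodule.span_induction with
    | mem w hw => exact hsub (Or.inr ⟨w, hw, rfl⟩)
    | zero => rw [map_zero]; exact zero_mem _
    | add b c _ _ hb hc => rw [map_add]; exact add_mem hb hc
    | smul b c _ hc => rw [map_smul]; exact Subalgebra.smul_mem _ hc b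
  let i : C →ₐ[O] C' :=
    (AlgEquiv.ofInjective j' hj').symm.toAlgHom.comp (j.codRestrict j'.range hrange)
  have hi : ∀ y, j' (i y) = j y := fun y =>
    congrArg Subtype.val ((AlgEquiv.ofInjective j' hj').apply_symm_apply ⟨j y, hrange y⟩)
  have : IsLocalHom (i : C →+* C') := isLocalHom_of_finite i
  obtain ⟨b, hb⟩ := hsub (Or.inl rfl)
  set S' := S.erase l
  set ρ' := mapRep (i : C →+* C') (pointRep hj hJ x) with hρ'
  have hpC' := p_mem_of_isLocalHom P (C := C')
  let ψ' : AC →+* Kbar O := ψ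
  let F : Subfield (Kbar O) := ψ'.fieldRange
  let e : F →+* ℂ := (AC.val : AC →+* ℂ).comp (RingEquiv.ofBijective ψ'.rangeRestrictField
    ψ'.rangeRestrictField_bijective).symm.toRingHom
  have he : ∀ w : AC, e ⟨ψ' w, w, rfl⟩ = (w : ℂ) := fun w => congrArg Subtype.val
    ((RingEquiv.ofBijective ψ'.rangeRestrictField
      ψ'.rangeRestrictField_bijective).symm_apply_apply w)
  have hS' : ∀ q, q.Prime → q ∣ M → q ∈ S' := fun q hq hqM =>
    Finset.mem_erase.mpr ⟨fun h => hlM (h ▸ hqM), H.mem.2 q hq hqM⟩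
  obtain ⟨θ', -, hθ'⟩ := LevelLowering.exists_theta (j' : C' →+* Kbar O) hj' hg S' hS' e
    (fun k => if k = l then b else i (pointRep hj hJ x (P.frob k)).trace) fun k hk hkS => by
      by_cases hkl : k = l
      · rw [if_pos hkl]
        refine ⟨⟨⟨(a : ℂ), hmemAC _ a.2⟩, hb.symm⟩, ?_⟩
        rw [hkl, ← ha]
        exact (he ⟨(a : ℂ), hmemAC _ a.2⟩).symm.trans (congrArg e (Subtype.ext hb.symm))
      · have hkS' : k ∉ (S : Set ℕ) := fun h =>
          hkS (Finset.mem_erase.mpr ⟨hkl, Finset.mem_coe.mp h⟩)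
        have hkM : ¬ k ∣ M := fun h => hkS (hS' k hk h)
        have hval : j' (i (pointRep hj hJ x (P.frob k)).trace) =
            ψ' ⟨χ (CuspForm.heckeAlgebra.T hk hkM hkS'), hRmem ⟨_, _, rfl⟩⟩ := by
          rw [hi, hθ k hk hkM hkS' _ (P.place_spec k hk) _ (P.frob_spec k hk)]
          exact (hψ _ _).symm
        rw [if_neg hkl]
        refine ⟨⟨_, hval.symm⟩, ?_⟩
        rw [← Eigenforms.eigenChar_T hg hk hkM hkS']
        exact (he ⟨_, hRmem ⟨_, _, rfl⟩⟩).symm.trans (congrArg e (Subtype.ext hval.symm))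
  obtain ⟨T, -, -⟩ := exists_attachedTrace_link (jacobianInputs M (p := P.p) Fact.out)
    frobeniusDivisions S'.finite_toSet (maximalIdeal C') hpC' θ'
  obtain ⟨h1, h2⟩ := traceCont_of_attached T
  have hρc : MatCont ρ' := (matCont_pointRep hj hJ x).map _ inferInstance
  have heq := eq_of_frobenius frobeniusDivisions (LevelLowering.isPseudoRep_trace ρ') h1
    (LevelLowering.traceCont_of_matCont hρc) h2 S fun k hk hkS A hA φ hφ => by
      have hkS' : k ∉ (S' : Set ℕ) := fun h =>
        hkS (Finset.mem_of_mem_erase (Finset.mem_coe.mp h))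
      have hkM : ¬ k ∣ M := fun h => hkS (H.mem.2 k hk h)
      have hkp : k ≠ P.p := fun h => hkS (h ▸ H.mem.1)
      have hkS0 : k ∉ (S : Set ℕ) := fun h => hkS (Finset.mem_coe.mp h)
      have hkl : k ≠ l := fun h => hkS (h ▸ hlS)
      obtain ⟨e1, e2⟩ := T.frob k hk hkM hkS' hkp A hA φ hφ
      refine ⟨?_, ?_⟩
      · rw [e1, hθ' k hk hkM hkS', if_neg hkl, hρ', Start.mapRep_trace]
        exact congrArg i ((hθ k hk hkM hkS0 A hA φ hφ).trans
          (hθ k hk hkM hkS0 _ (P.place_spec k hk) _ (P.frob_spec k hk)).symm)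
      · rw [e2, LevelLowering.detChar_apply, hρ', Start.mapRep_det, det_pointRep_cycChar,
          cycChar_frobenius _ hk hkp hA hφ, map_natCast]
  have hlS' : l ∉ (S' : Set ℕ) := fun h => Finset.notMem_erase l S (Finset.mem_coe.mp h)
  have h := congrFun heq.1 (P.frob l)
  rw [(T.frob l hl hlM hlS' hlp _ (P.place_spec l hl) _ (P.frob_spec l hl)).1,
    hθ' l hl hlM hlS', if_pos rfl, hρ', Start.mapRep_trace] at h
  exact hb.symm.trans ((congrArg j' h.symm).trans (hi _))

end TWSet

end FLTAgent.PointsDatum
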