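import Fermat.Agent.ModularityLifting.Final.Residual
import Fermat.Agent.ModularityLifting.Final.TopPoints
import Fermat.Agent.ModularityLifting.PointsDatum.Tame
import Fermat.Agent.ModularityLifting.Degeneracy.Provider.Maps
import Fermat.Agent.ModularityLifting.Degeneracy.Provider.NewPointsNewform
import Fermat.Agent.ModularityLifting.Degeneracy.Provider.NewPointsSingular

/-!
# The level data of the start of lifting

The points of the Hecke algebras at a set of Taylor–Wiles primes, with their representations, the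
action on the eigenparts and the degeneracy maps between the levels, form a level datum whose top
points lie on eigenforms of the level without Taylor–Wiles primes.
-/

set_option autoImplicit false

noncomputable section

open IsLocalRing

namespace FLTAgent.PointsDatum

open FLTAgent.LevelRaising FLTAgent.ModularityLifting FLTAgent.DefRing FLTAgent.HeckePoints

variable {O : Type} [CommRing O] [IsDomain O] [IsDiscreteValuationRing O] {P : LiftProblem O}
  {n : ℕ} [Fact P.p.Prime] [IsAdicComplete (maximalIdeal O) O]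
  [Finite (ResidueField O)] [CharZero O] [ExtraThree P]

/-- The level data of a set of Taylor–Wiles primes with the Selmer bound. -/
theorem exists_levelDatum (Q : TWSet P n) {d : Finset ℕ → ℕ} (hd : Q.rank = d)
    (hpos : 0 < Q.rank ∅)
    (hnf : P.p ∈ P.minimal → ¬ FlatAt P.ρbar P.p)
    (hextra : ∀ t ∈ P.extra,
      residue O (P.ρ (P.frob t)).trace ^ 2 ≠ ((t : ResidueField O) + 1) ^ 2)
    (htan : ∀ V : Submodule (ResidueField O) (AbsGal → Matrix (Fin 2) (Fin 2) (ResidueField O)),
      (∀ c ∈ V, IsAdCocycle P.ρbar c ∧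
        (∀ ℓ : ℕ, ℓ.Prime → ℓ ∉ P.loc → ℓ ≠ P.p → (∀ i, Q.q i ≠ ℓ) →
          ∀ A : ValuationSubring (AlgebraicClosure ℚ), A.LiesOverPrime ℓ →
            ∀ σ ∈ A.inertiaSubgroupIn ℚ, c σ = 0) ∧
        (∀ v ∈ P.loc, ∃ a, a.trace = 0 ∧ ∀ σ ∈ (P.place v).decompositionSubgroup ℚ,
          c σ = a - P.ρbar σ * a * P.ρbar σ⁻¹) ∧
        (P.p ∉ P.loc → ∀ M : MatRep (TrivSqZeroExt (ResidueField O) (ResidueField O)),
          (∀ σ i j, M σ i j = TrivSqZeroExt.inl (P.ρbar σ i j) +
            TrivSqZeroExt.inr ((c σ * P.ρbar σ) i j)) → FlatAt M P.p)) →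
      Module.finrank (ResidueField O) (V.map (adCoboundaries P.ρbar).mkQ) +
        ∑ v ∈ P.loc, Module.finrank (ResidueField O) (adInvariants P.ρbar (P.place v)) +
        (if P.p ∈ P.loc then 1 else 0) ≤ P.r) :
    ∃ D : LevelDatum P d n, ∀ θ ∈ D.topPts,
      ∃ f : CuspForm (CongruenceSubgroup.Gamma0 (baseLevel P P.raise)) 2,
        f.IsNormalizedEigenform ∧ ∃ (L : Type) (_ : CommRing L) (j : D.Coeff →+* L)
          (φ : integralClosure ℤ ℂ →+* L), Function.Injective j ∧
          ∀ ℓ : ℕ, ℓ.Prime → ¬ ℓ ∣ baseLevel P P.raise → ℓ ≠ P.p →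
            ∀ a : integralClosure ℤ ℂ,
            (a : ℂ) = ModularFormClass.qCoeff f ℓ → φ a = j (D.rep θ (P.frob ℓ)).trace := by
  subst hd
  obtain ⟨C, iC, iD, iV, iA, iF, iZ, iAlg, iFin, iL, j, hj, hinj, hlift⟩ := Q.exists_coefficients
  have := TWSet.finite_point (Q := Q) hj
  let : Fintype (Q.Point C) := Fintype.ofFinite _
  let D : LevelDatum P Q.rank n :=
    { q := Q.q
      q_prime := Q.q_prime
      q_inj := Q.q_inj
      tame := Q.tame
      tame_mem := Q.tame_mem
      Coeff := C
      coeff_inj := hinj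
      Pt := Q.Point C
      rep := TWSet.rep hj
      u := TWSet.uVal
      rep_cont := TWSet.rep_cont hj
      rep_det := TWSet.rep_det hj
      rep_trace := TWSet.rep_trace hj
      rep_unram := fun θ => TWSet.rep_unram hj θ
      u_mem := TWSet.uVal_sub_one_mem
      tame_trace := TWSet.tame_trace hj
      pts := TWSet.pts
      pts_unram := fun J _ θ hθ v hv hvp hvJ =>
        TWSet.pts_unram hj hextra J θ hθ v hv hvp hvJ
      pts_steinberg := fun J hJ θ _ v hv hvp => TWSet.pts_steinberg hj J hJ θ v hv hvp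
      pts_flat := fun J _ θ hθ hp => TWSet.pts_flat hj J θ hθ hp
      pts_strict := fun J _ θ _ hmin => TWSet.pts_strict hj hnf θ hmin
      pts_p := fun J hJ θ _ hpJ => TWSet.pts_p hj J hJ θ hpJ
      newPts := TWSet.dgNew hj hlift
      newPts_subset := fun J _ v _ _ => TWSet.dgNew_subset hj hlift
      newPts_steinberg := fun J hJ v hv hvJ hvp θ hθ =>
        TWSet.dgNew_steinberg hj hlift hJ hv hvJ hvp θ hθ
      newPts_strict := fun J hJ hp hpJ θ hθ => TWSet.dgNew_strict hj hlift hJ hp hpJ θ hθ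
      act := TWSet.act hj hlift
      act_u := fun J hJ i => TWSet.act_u hj hlift hJ i
      act_vanish := fun J hJ t ht => TWSet.act_vanish hj hlift hJ t ht
      act_vanish_zero := fun J hJ t ht => TWSet.act_vanish_zero hj hlift hJ t ht
      α := TWSet.dgAlpha
      αInv := TWSet.dgAlphaInv
      β := TWSet.dgBeta
      βInv := TWSet.dgBetaInv
      E := TWSet.dgE
      αInv_mul := fun J hJ v hv hvJ => TWSet.dgAlphaInv_mul hJ hv hvJ
      β_mul := fun J hJ v hv hvJ _ => TWSet.dgBeta_mul hJ hv hvJ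
      α_comm := fun J hJ v hv hvJ => TWSet.dgAlpha_comm hj hlift hJ hv hvJ
      β_comm := fun J hJ v hv hvJ _ => TWSet.dgBeta_comm hj hlift hJ hv hvJ
      E_comm := fun J hJ v hv hvJ => TWSet.dgE_comm hj hlift hJ hv hvJ
      E_p := fun J _ _ _ => TWSet.dgE_p
      β_α := fun J hJ v hv hvJ hvp => TWSet.dgBeta_alpha hj hlift hJ hv hvJ hvp
      β_E := fun J hJ v hv hvJ hvp => TWSet.dgBeta_E hj hlift hJ hv hvJ hvp
      coker := fun J hJ v hv hvJ t ht => TWSet.dgCoker hj hlift hJ hv hvJ t ht
      coker_zero := fun J hJ v hv hvJ t ht => TWSet.dgCoker_zero hj hlift hJ hv hvJ t ht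
      coker_p := TWSet.dgCoker_p hj hlift hpos
      tangent := htan }
  refine ⟨D, fun θ hθ => ?_⟩
  obtain ⟨hθ, hu⟩ := hθ
  have htop : (θ.1 : Finset ℕ) = P.raise := by
    split_ifs at hθ with hp
    · have h := D.newPts_subset (P.raise.erase P.p) (Finset.erase_subset _ _) P.p hp
        (Finset.notMem_erase _ _) hθ
      rwa [Finset.insert_erase hp] at h
    · exact hθ
  obtain ⟨⟨J, hJ'⟩, x⟩ := θ
  change J = P.raise at htop
  subst htop
  obtain ⟨f, hf, φ, hφ⟩ :=
    TWSet.exists_eigenform_base hj (Finset.mem_powerset.mp hJ') x hu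
  exact ⟨f, hf, Kbar O, inferInstance, (j : C →+* Kbar O), φ, hj, hφ⟩

end FLTAgent.PointsDatum

namespace FLTAgent.ModularityLifting.Final

open FLTAgent.ModularityLifting.Start FLTAgent.DefRing FLTAgent.PointsDatum

/-- The level data attached to the start of lifting: level data at all depths, whose top points lie
on eigenforms of the level without Taylor–Wiles primes. -/
theorem exists_levelData {p : ℕ} [Fact p.Prime] {W : WeierstrassCurve ℤ} (S : StartData p W) :
    ∃ (d : Finset ℕ → ℕ) (_ : 0 < d ∅) (D : ∀ n, LevelDatum S.P d n),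
      ∀ n, ∀ θ ∈ (D n).topPts,
        ∃ f : CuspForm (CongruenceSubgroup.Gamma0 (PointsDatum.baseLevel S.P S.P.raise)) 2,
          f.IsNormalizedEigenform ∧ ∃ (L : Type) (_ : CommRing L) (j : (D n).Coeff →+* L)
            (φ : integralClosure ℤ ℂ →+* L), Function.Injective j ∧
            ∀ ℓ : ℕ, ℓ.Prime → ¬ ℓ ∣ PointsDatum.baseLevel S.P S.P.raise → ℓ ≠ S.P.p →
              ∀ a : integralClosure ℤ ℂ,
              (a : ℂ) = ModularFormClass.qCoeff f ℓ →
                φ a = j ((D n).rep θ (S.P.frob ℓ)).trace := by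
  have : Fact S.P.p.Prime := ⟨S.P.hp⟩
  have := S.extraThree
  choose q hq hinj hcong htan using S.tw
  let Q : ∀ n, TWSet S.P n := fun n =>
    { q := q n
      q_prime := hq n
      q_inj := hinj n
      q_cong := fun i => by rw [S.p_eq]; exact (hcong n i).1
      dist := fun i => (hcong n i).2 }
  obtain ⟨d, m, hm, hd⟩ := exists_rank_const Q
  choose D hD using fun n => exists_levelDatum ((Q (m n)).lower (hm n)) (hd n)
    (S.rank_empty_pos _) S.notFlat
    (fun t ht => S.extra_trace_sq_ne ht (S.P.place_spec t (S.P.prime t (by simp [ht])))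
      (S.P.frob_spec t (S.P.prime t (by simp [ht]))))
    (htan (m n))
  exact ⟨d, hd 0 ▸ S.rank_empty_pos _, D, hD⟩

end FLTAgent.ModularityLifting.Final
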