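import Fermat.Agent.ModularityLifting.Start.Main
import Fermat.Agent.TWPrimes.Flat.Main
import Fermat.Agent.TWPrimes.Flat.Kills

/-!
# The flat inputs at `p` of the start of lifting

`killsFlatInput` and `flatBoundInput` come from the flat theory at `p`.
-/

set_option autoImplicit false

noncomputable section

namespace FLTAgent.ModularityLifting.Final

open FLTAgent.ModularityLifting.Start

/-- An element at `p` kills the flat modules and moves a root of `p`. -/
theorem killsFlatInput (p : ℕ) [Fact p.Prime] : KillsFlatInput p :=
  fun P hP => FlatBound.exists_kills_flat p P hP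

/-- The flat bound at `p`. -/
theorem flatBoundInput (p : ℕ) [Fact p.Prime] (hp2 : p ≠ 2) : FlatBoundInput p :=
  fun r hr hdet V hV => TWPrimes.classDim_le_of_flat p hp2 r hr hdet V hV

end FLTAgent.ModularityLifting.Final
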