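import Fermat.Agent.ModularityLifting.Start.Inputs
import Fermat.Agent.ModularityLifting.Final.StartInputs
import Fermat.Agent.ModularityLifting.Final.Provider
import Fermat.Agent.ModularityLifting.Engine.Main
import Fermat.Agent.LevelLowering.Core.Final
import Fermat.Agent.LowerSquare.Main
import Fermat.Agent.SemistableThree.LowerThree
import Fermat.Agent.SemistableFinals.PrincipleMain

/-!
# Modularity lifting at three and five

The steps of statement S59:

* residual modularity is lowered to the minimal level: squares by `LowerSquare.squareLowering`, the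
  residual characteristic by `SemistableThree.atPLowering`, unramified primes by
  `LevelLowering.lowerCore`; this gives a lifting problem (`Start.exists_startData`);
* Taylor–Wiles primes give level data whose top points lie on eigenforms (`exists_levelData`);
* the engine (`relationsVanish`) makes the relations between their traces hold for the curve,
  which is then modular at its exact conductor level (`Start.StartData.exactLevel`).
-/

set_option autoImplicit false

noncomputable section

open WeierstrassCurve IsLocalRing

namespace FLTAgent.ModularityLifting.Final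

open FLTAgent.ModularityLifting.Start

theorem squarefree_baseLevel {O : Type} [CommRing O] [IsDomain O] [IsDiscreteValuationRing O]
    (P : LiftProblem O) : Squarefree (PointsDatum.baseLevel P P.raise) := by
  have hprime : ∀ v ∈ P.minimal ∪ P.extra ∪ P.raise, v.Prime := fun v hv => P.prime v (by
    simp only [Finset.mem_union] at hv ⊢; tauto)
  rw [PointsDatum.baseLevel]
  refine Finset.squarefree_prod_of_pairwise_isCoprime ?_ fun v hv => (hprime v hv).squarefree
  intro a ha b hb hab
  exact Nat.coprime_iff_isRelPrime.mp ((Nat.coprime_primes (hprime a ha) (hprime b hb)).mpr hab)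

/-- **Modularity lifting at three and five.** -/
theorem modularityLifting (p : ℕ) (hp : p = 3 ∨ p = 5)
    (W : WeierstrassCurve ℤ) (hΔ : W.Δ ≠ 0) (hW : W.IsSemistableModel)
    (hirr : W.ModRepIsIrreducible p)
    (M₀ : ℕ) [NeZero M₀] (hres₀ : W.IsResiduallyModularOfLevel p M₀)
    (hM₀ : ¬ p ^ 2 ∣ M₀)
    (hM₀3 : ∀ q : ℕ, q.Prime → q ≠ p → ¬ q ^ 3 ∣ M₀) :
    Mlc1IsModularModelOfExactConductorLevel W := by
  have : Fact p.Prime := ⟨by rcases hp with rfl | rfl <;> norm_num⟩
  have hp2 : p ≠ 2 := by omega
  obtain ⟨S⟩ := exists_startData hp2 hΔ hW hirr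
    (flatBoundInput p hp2) (killsFlatInput p) (LowerSquare.squareLowering p hp2 W hΔ hW hirr)
    (SemistableThree.atPLowering p hp2 W hΔ hW hirr)
    (LevelLowering.lowerUnramified_of_core p hp2 W hΔ hW hirr (LevelLowering.lowerCore p hp2)
      (SemistableFinals.mazurPrincipleInput hp2 hΔ hW hirr))
    M₀ hres₀ hM₀ hM₀3
  obtain ⟨d, hd, D, hpts⟩ := exists_levelData S
  have hsqf := squarefree_baseLevel S.P
  set N := PointsDatum.baseLevel S.P S.P.raise
  have : NeZero N := ⟨hsqf.ne_zero⟩
  have h2 : ∀ q : ℕ, q.Prime → ¬ q ^ 2 ∣ N := fun q hq h =>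
    hq.not_isUnit (hsqf q (by rwa [← pow_two]))
  refine S.exactLevel hΔ hW hirr (relationsVanish S.P)
    (fun q hq h => h2 q hq ((pow_dvd_pow q (by norm_num : 2 ≤ 3)).trans h)) (h2 p Fact.out)
    (fun v hv => Finset.dvd_prod_of_mem _ ?_) hd D hpts
  simp only [Finset.mem_union] at hv ⊢
  tauto

end FLTAgent.ModularityLifting.Final
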