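import Fermat.Agent.ModularityLifting.Start.Main
import Fermat.Agent.ModularityLifting.PointsDatum.Hecke
import Fermat.Agent.ModularityLifting.Degeneracy.ModP
import Fermat.Agent.LocalThree.Symbols

/-!
# The residual eigensymbol of the start of lifting, and positivity of the rank at the bottom level

`exists_residual_symbol` gives the residual eigensymbol at the minimal level over any field of
characteristic `p`, and `rank_empty_pos` shows that the eigenpart at the bottom level is nonzero.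
-/

set_option autoImplicit false

noncomputable section

open IsLocalRing WeierstrassCurve

namespace FLTAgent.ModularityLifting.Start

open FLTAgent.LevelRaising FLTAgent.PointsDatum FLTAgent.DefRing

variable {p : ℕ} [Fact p.Prime] {W : WeierstrassCurve ℤ}

namespace StartData

variable (S : StartData p W)

theorem extraThree : ExtraThree S.P := ⟨fun h => by
  obtain ⟨t, ht⟩ := S.exists_extra (S.p_eq ▸ h)
  exact ⟨t, ht, (S.mem_extra t ht).2.2.1⟩⟩

/-- At an auxiliary prime the residual trace avoids `± (t + 1)`. -/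
theorem extra_trace_sq_ne {t : ℕ} (ht : t ∈ S.P.extra) {A : ValuationSubring (AlgebraicClosure ℚ)}
    (hA : A.LiesOverPrime t) {φ : AbsGal} (hφ : A.IsFrobeniusAt φ t) :
    (residue (Coeff p) (S.P.ρ φ).trace) ^ 2 ≠ ((t : ResidueField (Coeff p)) + 1) ^ 2 := by
  obtain ⟨h3, -, ht2, -, htr⟩ := S.mem_extra t ht
  have h0 : (t : ResidueField (Coeff p)) + 1 = 0 := by
    rw [← Nat.cast_succ, CharP.cast_eq_zero_iff (ResidueField (Coeff p)) p, h3]
    omega
  rw [h0, zero_pow two_ne_zero]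
  exact pow_ne_zero 2 (htr A hA φ hφ)

theorem not_mem_loc_dvd {ℓ : ℕ} (hℓ : ℓ.Prime) (hℓS : ℓ ∉ S.P.loc) :
    W.IsGoodPrimeFor ℓ ∧ ¬ ℓ ∣ ∏ v ∈ S.P.minimal, v := by
  refine ⟨fun hd => hℓS (Finset.mem_union_left _ ((S.mem_bad ℓ).mpr ⟨hℓ, hd⟩)), fun hd => ?_⟩
  obtain ⟨v, hv, hlv⟩ := hℓ.prime.exists_mem_finset_dvd hd
  have hvp : v.Prime := S.P.prime v (Finset.mem_union_left _ (Finset.mem_union_left _ hv))
  exact hℓS (Finset.mem_union_left _ (Finset.mem_union_left _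
    ((Nat.prime_dvd_prime_iff_eq hℓ hvp).mp hlv ▸ hv)))

/-- The residual eigensymbol at the minimal level, over any field of characteristic `p`. -/
theorem exists_residual_symbol (K : Type) [Field K] [CharP K p] :
    ∃ Φ : Cusp → Cusp → K, Φ ∈ Lev K (∏ v ∈ S.P.minimal, v) ∧ Φ ≠ 0 ∧
      ∀ ℓ, ℓ.Prime → ℓ ∉ S.P.loc → ℓ ≠ p → tOp K ℓ Φ = (W.apOfModel ℓ : K) • Φ := by
  obtain ⟨f, 𝔪, hf, hmax, hpm, hfa⟩ := S.residual
  have : NeZero (∏ v ∈ S.P.minimal, v) := ⟨Finset.prod_ne_zero_iff.mpr fun v hv =>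
    (S.P.prime v (Finset.mem_union_left _ (Finset.mem_union_left _ hv))).ne_zero⟩
  obtain ⟨Φ, hΦ, hΦ0, hT⟩ := LocalThree.exists_residual_symb K hf hmax hpm W.apOfModel
    (fun ℓ => ℓ ∉ S.P.loc ∧ ℓ ≠ p) fun ℓ hℓ hℓM hP =>
      hfa ℓ hℓ (S.not_mem_loc_dvd hℓ hP.1).1 hℓM hP.2
  exact ⟨Φ, hΦ, hΦ0, fun ℓ hℓ hl hlp => hT ℓ hℓ (S.not_mem_loc_dvd hℓ hl).2 ⟨hl, hlp⟩⟩

variable [Fact S.P.p.Prime] {n : ℕ}

/-- The residual eigenpart at the bottom level is nonzero. -/
theorem rank_empty_pos (Q : TWSet S.P n) : 0 < Q.rank ∅ := by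
  classical
  have hJ : (∅ : Finset ℕ) ⊆ S.P.raise := Finset.empty_subset _
  have : NeZero (Q.level ∅) := ⟨Q.level_ne_zero hJ⟩
  set k := ResidueField (TW S.P n)
  have : CharP k p := (congrArg (CharP k) S.p_eq).mp inferInstance
  rw [Q.rank_eq hJ]
  set δ : DirichletCharacter k (Q.level ∅) := (Q.delta ∅).ringHomComp (residue (TW S.P n)) with hδ
  have hδ1 : δ = 1 := MulChar.ext fun u => by
    obtain ⟨d, hd⟩ := ZMod.natCast_zmod_surjective (u : ZMod (Q.level ∅))
    have hu : IsUnit (d : ZMod (Q.level ∅)) := hd.symm ▸ u.isUnit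
    have hco := (ZMod.isUnit_iff_coprime d (Q.level ∅)).mp hu
    have hq : ∀ i, ¬ Q.q i ∣ d := fun i h => (Q.q_prime i).1.ne_one
      (Nat.dvd_one.mp (hco ▸ Nat.dvd_gcd h (Q.q_dvd_level i ∅)))
    rw [MulChar.one_apply_coe, hδ, MulChar.ringHomComp_apply, ← hd,
      ← Q.twScalar_mul_self ∅ hco, map_mul, Q.residue_twScalar hq, one_mul]
  have hSL : ∀ l, l.Prime → l ∣ Q.level ∅ → l ∈ Q.badSet := fun l hl h =>
    Q.mem_badSet_of_dvd hJ hl (h.mul_right _)
  obtain ⟨Φ, hΦ, hΦ0, hT⟩ := S.exists_residual_symbol k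
  have hdvd : (∏ v ∈ S.P.minimal, v) ∣ Q.level ∅ := by
    refine dvd_mul_of_dvd_left (Finset.prod_dvd_prod_of_subset _ _ _ ?_) _
    exact Finset.subset_union_left.trans Finset.subset_union_left
  have hmem : Φ ∈ Q.resPart ∅ := by
    show Φ ∈ eigenPart k δ Q.badSet (residue (TW S.P n) ∘ Q.aTW)
    rw [hδ1, mem_eigenPart_one_iff hSL]
    refine ⟨lev_mono hdvd hΦ, fun l hl hlS => ⟨1, ?_⟩⟩
    simp only [TWSet.badSet, Finset.mem_union, Finset.mem_singleton, not_or] at hlS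
    rw [pow_one, tShift_apply, hT l hl hlS.1.1 (S.p_eq ▸ hlS.1.2), Function.comp_apply]
    rw [show Q.aTW l = algebraMap _ _ (S.P.ρ (S.P.frob l)).trace from rfl,
      S.trace_frob l hl (S.not_mem_loc_dvd hl hlS.1.1).1 (S.p_eq ▸ hlS.1.2), map_intCast,
      map_intCast, sub_self]
  have := finite_symbChar (R := k) δ
  have : Module.Finite k (Q.resPart ∅) := Module.Finite.of_injective
    (Submodule.inclusion (fun v hv => ((mem_eigenPart_iff hSL).mp hv).1 :
      Q.resPart ∅ ≤ SymbChar k δ))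
    (Submodule.inclusion_injective _)
  refine Module.finrank_pos_iff_exists_ne_zero.mpr ⟨⟨Φ, hmem⟩, fun h => hΦ0 ?_⟩
  exact congrArg Subtype.val h

end StartData

end FLTAgent.ModularityLifting.Start
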